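/-
S20 project (dimension of S_2(Gamma0(N)) = genus formula), shared definitions.
Coset-slash formalism: for a form `f` on `Gamma0 N` and a left coset `c = g Γ`, `cosetFun f c = f ∣[k] g⁻¹`.
-/
import Mathlib
import Fermat.Prelude.Def_ModularCurve_GenusNumerics

set_option autoImplicit false

open UpperHalfPlane ModularForm CongruenceSubgroup Matrix.SpecialLinearGroup
open scoped MatrixGroups ModularForm Manifold Topology

noncomputable section

namespace Fermat.Agent.S20

/-- `Γ₀(N)` as a subgroup of `GL(2, ℝ)` (the level group of the forms in S20). -/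
abbrev Γ0 (N : ℕ) : Subgroup (GL (Fin 2) ℝ) := ((Gamma0 N : Subgroup SL(2, ℤ)) : Subgroup (GL (Fin 2) ℝ))

/-- The coset space `SL(2, ℤ) / Γ₀(N)` (left cosets), with its left `SL(2, ℤ)`-action. -/
abbrev X (N : ℕ) : Type := SL(2, ℤ) ⧸ Gamma0 N

variable {N : ℕ} {k : ℤ} {F : Type*} [FunLike F ℍ ℂ]

lemma mapGL_mem_Γ0 {γ : SL(2, ℤ)} (hγ : γ ∈ Gamma0 N) : (mapGL ℝ γ : GL (Fin 2) ℝ) ∈ Γ0 N :=
  ⟨γ, hγ, rfl⟩

lemma slash_eq_of_mem_Gamma0 [SlashInvariantFormClass F (Γ0 N) k] (f : F) {γ : SL(2, ℤ)}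
    (hγ : γ ∈ Gamma0 N) : (f : ℍ → ℂ) ∣[k] γ = f := by
  have := SlashInvariantFormClass.slash_action_eq f _ (mapGL_mem_Γ0 hγ)
  simpa [SL_slash, mapGL] using this

/-- The translate `f ∣[k] g⁻¹` of a `Γ₀(N)`-invariant `f`, as a function of the left coset `g Γ₀(N)`. -/
def cosetFun [SlashInvariantFormClass F (Γ0 N) k] (f : F) (c : X N) : ℍ → ℂ :=
  Quotient.liftOn' c (fun g : SL(2, ℤ) => (f : ℍ → ℂ) ∣[k] g⁻¹) (by
    intro g g' h
    rw [QuotientGroup.leftRel_apply] at h
    have h1 : g'⁻¹ = (g⁻¹ * g')⁻¹ * g⁻¹ := by group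
    show (f : ℍ → ℂ) ∣[k] g⁻¹ = (f : ℍ → ℂ) ∣[k] g'⁻¹
    rw [h1, SlashAction.slash_mul, slash_eq_of_mem_Gamma0 f (inv_mem h)])

section SIF
variable [SlashInvariantFormClass F (Γ0 N) k] (f : F)

@[simp] lemma cosetFun_mk (g : SL(2, ℤ)) :
    cosetFun f (QuotientGroup.mk g : X N) = (f : ℍ → ℂ) ∣[k] g⁻¹ := rfl

@[simp] lemma cosetFun_one : cosetFun f (QuotientGroup.mk 1 : X N) = f := by
  rw [cosetFun_mk, inv_one, SlashAction.slash_one]

lemma cosetFun_slash (g : SL(2, ℤ)) (c : X N) :
    cosetFun f c ∣[k] g = cosetFun f (g⁻¹ • c) := by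
  induction c using QuotientGroup.induction_on with
  | H h =>
    rw [MulAction.Quotient.smul_mk, cosetFun_mk, cosetFun_mk, ← SlashAction.slash_mul]
    congr 1
    simp [mul_inv_rev]

lemma cosetFun_smul_apply (g : SL(2, ℤ)) (c : X N) (τ : ℍ) :
    cosetFun f c (g • τ) = denom g τ ^ k * cosetFun f (g⁻¹ • c) τ := by
  rw [← cosetFun_slash, SL_slash_apply]
  have h : denom g τ ≠ 0 := denom_ne_zero g τ
  rw [zpow_neg, ← mul_assoc, mul_comm (denom g τ ^ k), mul_assoc, mul_inv_cancel₀ (zpow_ne_zero _ h),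
    mul_one]

end SIF

section MF
variable [ModularFormClass F (Γ0 N) k] (f : F)

lemma mdifferentiable_cosetFun (c : X N) : MDiff (cosetFun f c) := by
  induction c using QuotientGroup.induction_on with
  | H g =>
    rw [cosetFun_mk, SL_slash]
    exact (ModularFormClass.holo f).slash k _

lemma isBoundedAtImInfty_cosetFun [NeZero N] (c : X N) : IsBoundedAtImInfty (cosetFun f c) := by
  induction c using QuotientGroup.induction_on with
  | H g =>
    rw [cosetFun_mk]
    exact ModularFormClass.bdd_at_infty_slash f g⁻¹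

end MF

/-! ### Level-one forms restricted to `Γ₀(N)` -/

lemma Γ0_le_levelOne (N : ℕ) : Γ0 N ≤ 𝒮ℒ := Subgroup.map_le_range _ _

/-- Restriction of a level-one modular form to `Γ₀(N)`. Products with forms on `Γ₀(N)` are then
`(resLO N r).mul f : ModularForm (Γ0 N) (m + k)` and `g.mulModularForm (resLO N r) : CuspForm (Γ0 N) (k + m)`. -/
def resLO (N : ℕ) {m : ℤ} (r : ModularForm 𝒮ℒ m) : ModularForm (Γ0 N) m where
  toFun := r
  slash_action_eq' A hA := r.slash_action_eq' A (Γ0_le_levelOne N hA)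
  holo' := r.holo'
  bdd_at_cusps' hc := r.bdd_at_cusps' (hc.mono (Γ0_le_levelOne N))

@[simp] lemma resLO_apply {m : ℤ} (r : ModularForm 𝒮ℒ m) (τ : ℍ) : resLO N r τ = r τ := rfl

/-! ### Finite-type instances and vectors indexed by cosets -/

instance instFintypeX [NeZero N] : Fintype (X N) := Fintype.ofFinite _

instance instDecidableEqX : DecidableEq (X N) := Classical.decEq _

/-- Value vector of `f` at `τ`: the values of all coset translates. -/
def valVec [SlashInvariantFormClass F (Γ0 N) k] (f : F) (τ : ℍ) : X N → ℂ := fun c => cosetFun f c τ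

/-- Limit vector of `f` at `i∞`: the limits of all coset translates. -/
def limVec [SlashInvariantFormClass F (Γ0 N) k] (f : F) : X N → ℂ :=
  fun c => valueAtInfty (cosetFun f c)

/-- Jet vector of `f` at `i∞`: for each coset translate (a function of period `N`), the sum of its
first `N` coefficients in `q_N = exp (2 π i τ / N)`. -/
def jetVec [SlashInvariantFormClass F (Γ0 N) k] (f : F) : X N → ℂ :=
  fun c => ∑ r ∈ Finset.range N, (qExpansion (N : ℝ) (cosetFun f c)).coeff r

/-- The vectors on `X N` invariant under translation by `g`. -/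
def invOf (N : ℕ) (g : SL(2, ℤ)) : Submodule ℂ (X N → ℂ) where
  carrier := {w | ∀ c, w (g • c) = w c}
  add_mem' := by intro a b ha hb c; simp [ha c, hb c]
  zero_mem' := by intro c; rfl
  smul_mem' := by intro r a ha c; simp [ha c]

/-- Orbits of the cyclic group generated by `g` on `X N`. -/
abbrev Orb (N : ℕ) (g : SL(2, ℤ)) : Type := MulAction.orbitRel.Quotient (Subgroup.zpowers g) (X N)

/-- The matrix of coset translates of a family of forms indexed by `X N`. -/
def frameMatrix [NeZero N] {a : X N → ℤ} (F : ∀ x, ModularForm (Γ0 N) (a x)) (τ : ℍ) :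
    Matrix (X N) (X N) ℂ := Matrix.of fun c x => cosetFun (F x) c τ

/-- A frame: a family of forms `F x` of weights `a x`, indexed by the cosets, whose matrix of coset
translates is invertible at every point of `ℍ`, and which generates all modular forms on `Γ₀(N)` over
the ring of level-one forms. -/
def IsFrame [NeZero N] (a : X N → ℤ) (F : ∀ x, ModularForm (Γ0 N) (a x)) : Prop :=
  (∀ τ, (frameMatrix F τ).det ≠ 0) ∧
  ∀ (k : ℤ) (f : ModularForm (Γ0 N) k), ∃ r : ∀ x, ModularForm 𝒮ℒ (k - a x),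
    ∀ (c : X N) (τ : ℍ), cosetFun f c τ = ∑ x, r x τ * cosetFun (F x) c τ

end Fermat.Agent.S20
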