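/- S20 package C: basic properties of coset translates. -/
import Fermat.Agent.S20.Defs
set_option autoImplicit false
set_option linter.unusedSectionVars false

open UpperHalfPlane ModularForm CongruenceSubgroup Matrix.SpecialLinearGroup Filter
open scoped MatrixGroups ModularForm Manifold Topology

noncomputable section

namespace Fermat.Agent.S20

variable {N : ℕ} [NeZero N] {k : ℤ}

namespace H47

/-- Lower-left entry of `A⁻¹ * B`. -/
lemma inv_mul_apply_one_zero (A B : SL(2, ℤ)) :
    (A⁻¹ * B) 1 0 = A 0 0 * B 1 0 - A 1 0 * B 0 0 := by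
  rw [Matrix.SpecialLinearGroup.coe_mul, Matrix.SpecialLinearGroup.coe_inv,
    Matrix.adjugate_fin_two, Matrix.mul_apply, Fin.sum_univ_two]
  simp
  ring

/-- `T ^ N` fixes every left coset of `Γ₀(N)`. -/
lemma T_pow_mul_inv_mul_mem (N : ℕ) (g : SL(2, ℤ)) :
    (ModularGroup.T ^ N * g)⁻¹ * g ∈ Gamma0 N := by
  rw [Gamma0_mem, inv_mul_apply_one_zero, Matrix.SpecialLinearGroup.coe_mul, ← zpow_natCast,
    ModularGroup.coe_T_zpow]
  simp [Matrix.mul_apply, Fin.sum_univ_two]
  ring

/-- `-1` fixes every left coset of `Γ₀(N)`. -/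
lemma neg_one_mul_inv_mul_mem (N : ℕ) (g : SL(2, ℤ)) :
    ((-1 : SL(2, ℤ)) * g)⁻¹ * g ∈ Gamma0 N := by
  rw [Gamma0_mem, inv_mul_apply_one_zero, Matrix.SpecialLinearGroup.coe_mul]
  simp [Matrix.mul_apply, Fin.sum_univ_two]
  ring

lemma denom_T_zpow (n : ℤ) (τ : ℍ) : denom (ModularGroup.T ^ n : SL(2, ℤ)) τ = 1 := by
  rw [ModularGroup.denom_apply, ModularGroup.coe_T_zpow]
  simp

lemma denom_T (τ : ℍ) : denom (ModularGroup.T : SL(2, ℤ)) τ = 1 := by
  simpa using denom_T_zpow 1 τ

/-- Translation by a real number preserves the filter `atImInfty`. -/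
lemma tendsto_vadd_atImInfty (x : ℝ) : Tendsto (fun τ : ℍ => x +ᵥ τ) atImInfty atImInfty := by
  rw [atImInfty, tendsto_comap_iff]
  have : (im ∘ fun τ : ℍ => x +ᵥ τ) = im := by
    funext τ
    simp [UpperHalfPlane.vadd_im]
  rw [this]
  exact tendsto_comap

/-- A level-one form is invariant under the slash action of `SL(2, ℤ)`. -/
lemma levelOne_slash {m : ℤ} (r : ModularForm 𝒮ℒ m) (g : SL(2, ℤ)) : (r : ℍ → ℂ) ∣[m] g = r :=
  r.slash_action_eq' _ ⟨g, rfl⟩

/-- A family with the transformation law of coset translates is permuted by the slash action. -/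
lemma family_slash (u : X N → ℍ → ℂ)
    (tr : ∀ (g : SL(2, ℤ)) (c : X N) (τ : ℍ), u c (g • τ) = denom g τ ^ k * u (g⁻¹ • c) τ)
    (g : SL(2, ℤ)) (c : X N) : u c ∣[k] g = u (g⁻¹ • c) := by
  funext τ
  rw [SL_slash_apply, tr g c τ]
  have h : denom g τ ≠ 0 := denom_ne_zero g τ
  rw [zpow_neg, mul_comm (denom g τ ^ k), mul_assoc, mul_inv_cancel₀ (zpow_ne_zero _ h), mul_one]

/-- The slash-invariant form underlying a family with the transformation law of coset
translates. -/
def familySIF (u : X N → ℍ → ℂ)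
    (tr : ∀ (g : SL(2, ℤ)) (c : X N) (τ : ℍ), u c (g • τ) = denom g τ ^ k * u (g⁻¹ • c) τ) :
    SlashInvariantForm (Γ0 N) k where
  toFun := u (QuotientGroup.mk 1)
  slash_action_eq' := by
    rintro γ ⟨g, hg, rfl⟩
    have h1 := family_slash u tr g (QuotientGroup.mk 1)
    rw [MulAction.Quotient.smul_mk, smul_eq_mul, mul_one] at h1
    have h2 : (QuotientGroup.mk g⁻¹ : X N) = QuotientGroup.mk 1 := by
      rw [QuotientGroup.eq, inv_inv]
      simpa using hg
    rw [h2] at h1
    exact h1

lemma cosetFun_familySIF (u : X N → ℍ → ℂ)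
    (tr : ∀ (g : SL(2, ℤ)) (c : X N) (τ : ℍ), u c (g • τ) = denom g τ ^ k * u (g⁻¹ • c) τ)
    {F : Type*} [FunLike F ℍ ℂ] [SlashInvariantFormClass F (Γ0 N) k] (f : F)
    (hf : (f : ℍ → ℂ) = u (QuotientGroup.mk 1)) (c : X N) : cosetFun f c = u c := by
  induction c using QuotientGroup.induction_on with
  | H g =>
    rw [cosetFun_mk, hf, family_slash u tr, inv_inv, MulAction.Quotient.smul_mk, smul_eq_mul,
      mul_one]

/-- A level-one modular form tends to its value at infinity. -/
lemma tendsto_levelOne {m : ℤ} (r : ModularForm 𝒮ℒ m) :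
    Tendsto (r : ℍ → ℂ) atImInfty (𝓝 (valueAtInfty r)) := by
  have hper := SlashInvariantFormClass.periodic_comp_ofComplex r one_mem_strictPeriods_SL
  have hanal := ModularFormClass.analyticAt_cuspFunction_zero r one_pos one_mem_strictPeriods_SL
  rw [← cuspFunction_apply_zero one_pos hanal hper]
  exact (hanal.continuousAt.tendsto.comp (qParam_tendsto_atImInfty one_pos)).congr
    (fun τ => eq_cuspFunction τ one_ne_zero hper)

end H47

/-- C0. cosetFun only depends on the underlying function and the weight. -/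
theorem cosetFun_congr {F F' : Type*} [FunLike F ℍ ℂ] [FunLike F' ℍ ℂ] {k k' : ℤ}
    [SlashInvariantFormClass F (Γ0 N) k] [SlashInvariantFormClass F' (Γ0 N) k'] (hk : k = k')
    (f : F) (f' : F') (h : (f : ℍ → ℂ) = f') (c : X N) : cosetFun f c = cosetFun f' c := by
  subst hk
  induction c using QuotientGroup.induction_on with
  | H g => rw [cosetFun_mk, cosetFun_mk, h]

/-- C0'. Coset translates of a cusp form vanish at `i∞`. -/
theorem isZeroAtImInfty_cosetFun_of_cusp {F' : Type*} [FunLike F' ℍ ℂ] [CuspFormClass F' (Γ0 N) k]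
    (f : F') (c : X N) : IsZeroAtImInfty (cosetFun f c) := by
  induction c using QuotientGroup.induction_on with
  | H g =>
    rw [cosetFun_mk]
    exact CuspFormClass.zero_at_infty_slash f g⁻¹

/-- C1. `T ^ N` acts trivially on `X N`. -/
theorem T_pow_N_smul (c : X N) : (ModularGroup.T ^ N) • c = c := by
  induction c using QuotientGroup.induction_on with
  | H g =>
    rw [MulAction.Quotient.smul_mk, QuotientGroup.eq]
    exact H47.T_pow_mul_inv_mul_mem N g

/-- C1'. `-1` acts trivially on `X N`. -/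
theorem neg_one_smul_X (c : X N) : (-1 : SL(2, ℤ)) • c = c := by
  induction c using QuotientGroup.induction_on with
  | H g =>
    rw [MulAction.Quotient.smul_mk, QuotientGroup.eq]
    exact H47.neg_one_mul_inv_mul_mem N g

/-- C2. Translation by `1` permutes the coset translates. -/
theorem cosetFun_vadd_one {F : Type*} [FunLike F ℍ ℂ] [SlashInvariantFormClass F (Γ0 N) k] (f : F)
    (c : X N) (τ : ℍ) : cosetFun f c ((1 : ℝ) +ᵥ τ) = cosetFun f (ModularGroup.T⁻¹ • c) τ := by
  have h := cosetFun_smul_apply f ModularGroup.T c τ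
  rw [UpperHalfPlane.modular_T_smul, H47.denom_T, one_zpow, one_mul] at h
  exact h

/-- C3. Every coset translate has period `N`. -/
theorem cosetFun_periodic {F : Type*} [FunLike F ℍ ℂ] [SlashInvariantFormClass F (Γ0 N) k] (f : F)
    (c : X N) : Function.Periodic (cosetFun f c ∘ ofComplex) (N : ℝ) := by
  intro w
  by_cases hw : 0 < w.im
  · have hw' : 0 < (w + (N : ℝ)).im := by simpa using hw
    simp only [Function.comp_apply, ofComplex_apply_of_im_pos hw', ofComplex_apply_of_im_pos hw]
    have h := cosetFun_smul_apply f (ModularGroup.T ^ (N : ℤ)) c ⟨w, hw⟩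
    rw [UpperHalfPlane.modular_T_zpow_smul, H47.denom_T_zpow, one_zpow, one_mul, zpow_natCast,
      inv_smul_eq_iff.mpr (T_pow_N_smul c).symm] at h
    rw [← h]
    congr 1
    ext
    simp [add_comm]
  · have hw1 : w.im ≤ 0 := not_lt.mp hw
    have hw' : (w + (N : ℝ)).im ≤ 0 := by simpa using hw1
    simp only [Function.comp_apply, ofComplex_apply_of_im_nonpos hw',
      ofComplex_apply_of_im_nonpos hw1]

/-- C4. Every coset translate of a modular form has a limit at `i∞`, namely `limVec f c`. -/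
theorem tendsto_cosetFun {F : Type*} [FunLike F ℍ ℂ] [ModularFormClass F (Γ0 N) k] (f : F)
    (c : X N) : Tendsto (cosetFun f c) atImInfty (𝓝 (limVec f c)) := by
  have hN : (0 : ℝ) < N := Nat.cast_pos.mpr (NeZero.pos N)
  have hper := cosetFun_periodic f c
  have hhol := mdifferentiable_cosetFun f c
  have hbdd := isBoundedAtImInfty_cosetFun f c
  have hanal := analyticAt_cuspFunction_zero hN hper hhol hbdd
  have h0 : cuspFunction (N : ℝ) (cosetFun f c) 0 = limVec f c :=
    cuspFunction_apply_zero hN hanal hper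
  rw [← h0]
  exact (hanal.continuousAt.tendsto.comp (qParam_tendsto_atImInfty hN)).congr
    (fun τ => eq_cuspFunction τ hN.ne' hper)

/-- C5. The limit vector is `T`-invariant. -/
theorem limVec_mem_invOf {F : Type*} [FunLike F ℍ ℂ] [ModularFormClass F (Γ0 N) k] (f : F) :
    limVec f ∈ invOf N ModularGroup.T := by
  intro c
  have h1 := tendsto_cosetFun f (ModularGroup.T • c)
  have h2 := tendsto_cosetFun f c
  have h3 : ∀ τ : ℍ, cosetFun f (ModularGroup.T • c) ((1 : ℝ) +ᵥ τ) = cosetFun f c τ := by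
    intro τ
    rw [cosetFun_vadd_one, inv_smul_smul]
  exact tendsto_nhds_unique ((h1.comp (H47.tendsto_vadd_atImInfty 1)).congr h3) h2

/-- C6. A modular form all of whose coset translates vanish at `i∞` is a cusp form. -/
theorem exists_cuspForm_of_limVec_eq_zero (f : ModularForm (Γ0 N) k) (h : limVec f = 0) :
    ∃ g : CuspForm (Γ0 N) k, (g : ℍ → ℂ) = f := by
  refine ⟨{ f with zero_at_cusps' := ?_ }, rfl⟩
  intro c hc
  rw [Subgroup.IsArithmetic.isCusp_iff_isCusp_SL2Z] at hc
  rw [OnePoint.isZeroAt_iff_forall_SL2Z hc]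
  intro γ _
  have h1 := tendsto_cosetFun f (QuotientGroup.mk γ⁻¹ : X N)
  rw [show limVec f (QuotientGroup.mk γ⁻¹ : X N) = 0 from congrFun h _, cosetFun_mk, inv_inv] at h1
  exact h1

theorem limVec_cuspForm (g : CuspForm (Γ0 N) k) : limVec g = 0 := by
  funext c
  exact (isZeroAtImInfty_cosetFun_of_cusp g c).valueAtInfty_eq_zero

/-- C7. A cusp form is a modular form with vanishing limit vector. -/
theorem exists_modularForm_of_cuspForm (g : CuspForm (Γ0 N) k) :
    ∃ f : ModularForm (Γ0 N) k, (f : ℍ → ℂ) = g ∧ limVec f = 0 := by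
  refine ⟨ModularFormClass.modularForm g, rfl, ?_⟩
  funext c
  show valueAtInfty (cosetFun (ModularFormClass.modularForm g) c) = 0
  rw [cosetFun_congr rfl (ModularFormClass.modularForm g) g rfl c]
  exact (isZeroAtImInfty_cosetFun_of_cusp g c).valueAtInfty_eq_zero

/-- C8. Level-one form times `Γ₀(N)`-form: coset translates. -/
theorem cosetFun_resLO_mul {m : ℤ} (r : ModularForm 𝒮ℒ m) (f : ModularForm (Γ0 N) k) (c : X N)
    (τ : ℍ) : cosetFun ((resLO N r).mul f) c τ = r τ * cosetFun f c τ := by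
  induction c using QuotientGroup.induction_on with
  | H g =>
    have h1 : (⇑(resLO N r) : ℍ → ℂ) = r := rfl
    rw [cosetFun_mk, cosetFun_mk, ModularForm.coe_mul, h1, ModularForm.mul_slash_SL2,
      H47.levelOne_slash, Pi.mul_apply]

/-- C8'. Cusp form on `Γ₀(N)` times level-one form: coset translates. -/
theorem cosetFun_mulModularForm_resLO {m : ℤ} (g : CuspForm (Γ0 N) k) (r : ModularForm 𝒮ℒ m)
    (c : X N) (τ : ℍ) : cosetFun (g.mulModularForm (resLO N r)) c τ = cosetFun g c τ * r τ := by
  induction c using QuotientGroup.induction_on with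
  | H γ =>
    have h1 : (⇑(resLO N r) : ℍ → ℂ) = r := rfl
    rw [cosetFun_mk, cosetFun_mk, CuspForm.coe_mulModularForm, h1, ModularForm.mul_slash_SL2,
      H47.levelOne_slash, Pi.mul_apply]

/-- C9. Coset translates are additive and homogeneous (modular forms and cusp forms). -/
theorem cosetFun_add (f g : ModularForm (Γ0 N) k) (c : X N) :
    cosetFun (f + g) c = cosetFun f c + cosetFun g c := by
  induction c using QuotientGroup.induction_on with
  | H γ =>
    rw [cosetFun_mk, cosetFun_mk, cosetFun_mk, FunLike.coe_add, SlashAction.add_slash]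

theorem cosetFun_smul (a : ℂ) (f : ModularForm (Γ0 N) k) (c : X N) :
    cosetFun (a • f) c = a • cosetFun f c := by
  induction c using QuotientGroup.induction_on with
  | H γ =>
    rw [cosetFun_mk, cosetFun_mk, FunLike.coe_smul, ModularForm.SL_smul_slash]

theorem cosetFun_cusp_add (f g : CuspForm (Γ0 N) k) (c : X N) :
    cosetFun (f + g) c = cosetFun f c + cosetFun g c := by
  induction c using QuotientGroup.induction_on with
  | H γ =>
    rw [cosetFun_mk, cosetFun_mk, cosetFun_mk, FunLike.coe_add, SlashAction.add_slash]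

theorem cosetFun_cusp_smul (a : ℂ) (f : CuspForm (Γ0 N) k) (c : X N) :
    cosetFun (a • f) c = a • cosetFun f c := by
  induction c using QuotientGroup.induction_on with
  | H γ =>
    rw [cosetFun_mk, cosetFun_mk, FunLike.coe_smul, ModularForm.SL_smul_slash]

theorem limVec_add (f g : ModularForm (Γ0 N) k) : limVec (f + g) = limVec f + limVec g := by
  funext c
  have h1 := tendsto_cosetFun (f + g) c
  rw [cosetFun_add] at h1
  exact tendsto_nhds_unique h1 ((tendsto_cosetFun f c).add (tendsto_cosetFun g c))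

theorem limVec_smul (a : ℂ) (f : ModularForm (Γ0 N) k) : limVec (a • f) = a • limVec f := by
  funext c
  have h1 := tendsto_cosetFun (a • f) c
  rw [cosetFun_smul] at h1
  exact tendsto_nhds_unique h1 ((tendsto_cosetFun f c).const_smul a)

/-- C9'. Limit vector of a level-one multiple. -/
theorem limVec_resLO_mul {m : ℤ} (r : ModularForm 𝒮ℒ m) (f : ModularForm (Γ0 N) k) :
    limVec ((resLO N r).mul f) = valueAtInfty r • limVec f := by
  funext c
  have h1 := tendsto_cosetFun ((resLO N r).mul f) c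
  have h2 : cosetFun ((resLO N r).mul f) c = fun τ => r τ * cosetFun f c τ :=
    funext (cosetFun_resLO_mul r f c)
  rw [h2] at h1
  exact tendsto_nhds_unique h1 ((H47.tendsto_levelOne r).mul (tendsto_cosetFun f c))

/-- C10. The trace pairing of two families of coset translates is invariant under `SL(2, ℤ)`. -/
theorem pairing_slash {F F' : Type*} [FunLike F ℍ ℂ] [FunLike F' ℍ ℂ] {k l : ℤ}
    [SlashInvariantFormClass F (Γ0 N) k] [SlashInvariantFormClass F' (Γ0 N) l] (f : F) (g : F')
    (γ : SL(2, ℤ)) :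
    (fun τ => ∑ c : X N, cosetFun f c τ * cosetFun g c τ) ∣[k + l] γ =
      fun τ => ∑ c : X N, cosetFun f c τ * cosetFun g c τ := by
  have h1 : (fun τ => ∑ c : X N, cosetFun f c τ * cosetFun g c τ) =
      ∑ c : X N, cosetFun f c * cosetFun g c := by
    funext τ
    simp [Finset.sum_apply]
  rw [h1, SlashAction.sum_slash]
  simp_rw [ModularForm.mul_slash_SL2, cosetFun_slash]
  exact Equiv.sum_comp (MulAction.toPerm γ⁻¹) (fun c : X N => cosetFun f c * cosetFun g c)

/-- C11. A modular form of odd weight on `Γ₀(N)` vanishes. -/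
theorem eq_zero_of_odd_weight (hk : Odd k) (f : ModularForm (Γ0 N) k) : f = 0 := by
  refine ModularForm.eq_zero_of_neg_one_mem ?_ hk f
  have h1 : (-1 : SL(2, ℤ)) ∈ Gamma0 N := by
    rw [Gamma0_mem]
    simp
  have h2 := mapGL_mem_Γ0 h1
  have h3 : (mapGL ℝ (-1 : SL(2, ℤ)) : GL (Fin 2) ℝ) = -1 := by
    ext i j
    simp [mapGL]
  rwa [h3] at h2

/-- C12. A modular form of negative weight on `Γ₀(N)` vanishes; a cusp form of weight `≤ 0` vanishes. -/
theorem eq_zero_of_neg_weight (hk : k < 0) (f : ModularForm (Γ0 N) k) : f = 0 :=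
  ModularForm.isZero_of_neg_weight hk f

/-- C13. A modular form of weight `0` on `Γ₀(N)` is constant. -/
theorem const_of_weight_zero (f : ModularForm (Γ0 N) 0) : ∃ c : ℂ, ∀ τ, f τ = c := by
  obtain ⟨c, hc⟩ := ModularForm.eq_const_of_weight_zero f
  exact ⟨c, fun τ => by rw [hc]; rfl⟩

theorem cusp_eq_zero_of_nonpos_weight (hk : k ≤ 0) (f : CuspForm (Γ0 N) k) : f = 0 := by
  obtain ⟨F, hF, hlim⟩ := exists_modularForm_of_cuspForm f
  rcases hk.lt_or_eq with hk | rfl
  · have h0 := eq_zero_of_neg_weight hk F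
    ext τ
    rw [← hF, h0]
    rfl
  · obtain ⟨c, hc⟩ := const_of_weight_zero F
    have h1 : Tendsto (F : ℍ → ℂ) atImInfty (𝓝 0) := by
      have := tendsto_cosetFun F (QuotientGroup.mk 1 : X N)
      rwa [cosetFun_one, hlim] at this
    have h2 : Tendsto (F : ℍ → ℂ) atImInfty (𝓝 c) := by
      have : (F : ℍ → ℂ) = fun _ => c := funext hc
      rw [this]
      exact tendsto_const_nhds
    have hc0 : c = 0 := tendsto_nhds_unique h2 h1
    ext τ
    rw [← hF, hc τ, hc0]
    rfl

/-- C14. A holomorphic family indexed by the cosets with the transformation law of coset translates,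
bounded at `i∞`, is the family of coset translates of a modular form on `Γ₀(N)`. -/
theorem exists_modularForm_of_family (u : X N → ℍ → ℂ) (hol : ∀ c, MDiff (u c))
    (tr : ∀ (g : SL(2, ℤ)) (c : X N) (τ : ℍ), u c (g • τ) = denom g τ ^ k * u (g⁻¹ • c) τ)
    (bdd : ∀ c, IsBoundedAtImInfty (u c)) :
    ∃ f : ModularForm (Γ0 N) k, ∀ c, cosetFun f c = u c := by
  refine ⟨{ H47.familySIF u tr with
      holo' := hol _
      bdd_at_cusps' := ?_ }, fun c => H47.cosetFun_familySIF u tr _ rfl c⟩
  intro c hc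
  rw [Subgroup.IsArithmetic.isCusp_iff_isCusp_SL2Z] at hc
  rw [OnePoint.isBoundedAt_iff_forall_SL2Z hc]
  intro γ _
  show IsBoundedAtImInfty (u (QuotientGroup.mk 1) ∣[k] γ)
  rw [H47.family_slash u tr]
  exact bdd _

/-- C15. Same for cusp forms: all members of the family tend to `0` at `i∞`. -/
theorem exists_cuspForm_of_family (u : X N → ℍ → ℂ) (hol : ∀ c, MDiff (u c))
    (tr : ∀ (g : SL(2, ℤ)) (c : X N) (τ : ℍ), u c (g • τ) = denom g τ ^ k * u (g⁻¹ • c) τ)
    (zero : ∀ c, IsZeroAtImInfty (u c)) :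
    ∃ f : CuspForm (Γ0 N) k, ∀ c, cosetFun f c = u c := by
  refine ⟨{ H47.familySIF u tr with
      holo' := hol _
      zero_at_cusps' := ?_ }, fun c => H47.cosetFun_familySIF u tr _ rfl c⟩
  intro c hc
  rw [Subgroup.IsArithmetic.isCusp_iff_isCusp_SL2Z] at hc
  rw [OnePoint.isZeroAt_iff_forall_SL2Z hc]
  intro γ _
  show IsZeroAtImInfty (u (QuotientGroup.mk 1) ∣[k] γ)
  rw [H47.family_slash u tr]
  exact zero _

end Fermat.Agent.S20
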