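/-
S20 project: generation by level-one combinations, plain form versus coset form; frames are
independent over level one.
-/
import Fermat.Agent.S20.Defs

set_option autoImplicit false

open UpperHalfPlane ModularForm CongruenceSubgroup Matrix.SpecialLinearGroup Filter
open scoped MatrixGroups ModularForm Manifold Topology

noncomputable section

namespace Fermat.Agent.S20

variable {N : ℕ}

/-- A level-one form is invariant under the slash action of `SL(2, ℤ)`. -/
lemma levelOne_slash_eq {m : ℤ} (r : ModularForm 𝒮ℒ m) (γ : SL(2, ℤ)) : (r : ℍ → ℂ) ∣[m] γ = r := by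
  have := SlashInvariantFormClass.slash_action_eq r (mapGL ℝ γ) ⟨γ, rfl⟩
  simpa [SL_slash, mapGL] using this

/-- Transformation law of a level-one form. -/
lemma levelOne_smul_apply {m : ℤ} (r : ModularForm 𝒮ℒ m) (γ : SL(2, ℤ)) (τ : ℍ) :
    r (γ • τ) = denom γ τ ^ m * r τ := by
  have h := congrFun (levelOne_slash_eq r γ) τ
  rw [SL_slash_apply] at h
  have hd : denom γ τ ≠ 0 := denom_ne_zero γ τ
  rw [← h, zpow_neg, mul_comm (r (γ • τ)), ← mul_assoc, mul_inv_cancel₀ (zpow_ne_zero _ hd), one_mul]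

/-- Value of a coset translate. -/
lemma cosetFun_mk_inv_apply {F : Type*} [FunLike F ℍ ℂ] {k : ℤ} [SlashInvariantFormClass F (Γ0 N) k]
    (f : F) (γ : SL(2, ℤ)) (τ : ℍ) :
    cosetFun f (QuotientGroup.mk γ⁻¹ : X N) τ = f (γ • τ) * denom γ τ ^ (-k) := by
  rw [cosetFun_mk, inv_inv, SL_slash_apply]

/-- Generation by level-one combinations: the plain form implies the coset form. -/
theorem cosetFun_eq_sum_of_eq_sum {ι : Type*} [Fintype ι] {a : ι → ℤ}
    (F : ∀ i, ModularForm (Γ0 N) (a i)) {k : ℤ} (f : ModularForm (Γ0 N) k)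
    (r : ∀ i, ModularForm 𝒮ℒ (k - a i)) (h : ∀ τ, f τ = ∑ i, r i τ * F i τ) (c : X N) (τ : ℍ) :
    cosetFun f c τ = ∑ i, r i τ * cosetFun (F i) c τ := by
  induction c using QuotientGroup.induction_on with
  | H g =>
    obtain ⟨γ, rfl⟩ : ∃ γ : SL(2, ℤ), g = γ⁻¹ := ⟨g⁻¹, (inv_inv g).symm⟩
    rw [cosetFun_mk_inv_apply, h, Finset.sum_mul]
    refine Finset.sum_congr rfl fun i _ => ?_
    rw [cosetFun_mk_inv_apply, levelOne_smul_apply]
    have hd : denom γ τ ≠ 0 := denom_ne_zero γ τ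
    have e : denom γ τ ^ (k - a i) * denom γ τ ^ (-k) = denom γ τ ^ (-a i) := by
      rw [← zpow_add₀ hd]; congr 1; ring
    calc denom γ τ ^ (k - a i) * r i τ * F i (γ • τ) * denom γ τ ^ (-k)
        = r i τ * (F i (γ • τ) * (denom γ τ ^ (k - a i) * denom γ τ ^ (-k))) := by ring
      _ = r i τ * (F i (γ • τ) * denom γ τ ^ (-a i)) := by rw [e]

/-- Generation by level-one combinations: the coset form implies the plain form. -/
theorem eq_sum_of_cosetFun_eq_sum {ι : Type*} [Fintype ι] {a : ι → ℤ}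
    (F : ∀ i, ModularForm (Γ0 N) (a i)) {k : ℤ} (f : ModularForm (Γ0 N) k)
    (r : ∀ i, ModularForm 𝒮ℒ (k - a i))
    (h : ∀ (c : X N) (τ : ℍ), cosetFun f c τ = ∑ i, r i τ * cosetFun (F i) c τ) (τ : ℍ) :
    f τ = ∑ i, r i τ * F i τ := by
  have := h (QuotientGroup.mk 1) τ
  simpa [cosetFun_one] using this

variable [NeZero N] {a : X N → ℤ} {F : ∀ x, ModularForm (Γ0 N) (a x)}

theorem IsFrame.det_ne_zero (hF : IsFrame a F) (τ : ℍ) : (frameMatrix F τ).det ≠ 0 := hF.1 τ

/-- Generation, coset form. -/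
theorem IsFrame.gen_coset (hF : IsFrame a F) {k : ℤ} (f : ModularForm (Γ0 N) k) :
    ∃ r : ∀ x, ModularForm 𝒮ℒ (k - a x),
      ∀ (c : X N) (τ : ℍ), cosetFun f c τ = ∑ x, r x τ * cosetFun (F x) c τ := hF.2 k f

/-- Generation, plain form. -/
theorem IsFrame.gen (hF : IsFrame a F) {k : ℤ} (f : ModularForm (Γ0 N) k) :
    ∃ r : ∀ x, ModularForm 𝒮ℒ (k - a x), ∀ τ : ℍ, f τ = ∑ x, r x τ * F x τ := by
  obtain ⟨r, hr⟩ := hF.2 k f
  exact ⟨r, eq_sum_of_cosetFun_eq_sum F f r hr⟩

/-- Pointwise independence: a vector of coefficients killed by the frame matrix at `τ` vanishes. -/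
theorem IsFrame.eq_zero_of_sum_eq_zero (hF : IsFrame a F) (τ : ℍ) (v : X N → ℂ)
    (h : ∀ c : X N, ∑ x, v x * cosetFun (F x) c τ = 0) : v = 0 := by
  have h1 : (frameMatrix F τ).mulVec v = 0 := by
    funext c
    simp only [Matrix.mulVec, dotProduct, frameMatrix, Matrix.of_apply, Pi.zero_apply]
    rw [← h c]
    exact Finset.sum_congr rfl fun x _ => mul_comm _ _
  exact Matrix.eq_zero_of_mulVec_eq_zero (hF.1 τ) h1

/-- A frame is independent over the level-one forms (plain form). -/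
theorem IsFrame.indep (hF : IsFrame a F) {k : ℤ} (r : ∀ x, ModularForm 𝒮ℒ (k - a x))
    (h : ∀ τ : ℍ, ∑ x, r x τ * F x τ = 0) : ∀ x, r x = 0 := by
  have key : ∀ τ : ℍ, (fun x => r x τ) = 0 := by
    intro τ
    refine hF.eq_zero_of_sum_eq_zero τ _ fun c => ?_
    have h0 := cosetFun_eq_sum_of_eq_sum F (0 : ModularForm (Γ0 N) k) r
      (fun τ => by rw [h τ]; rfl) c τ
    rw [← h0]
    induction c using QuotientGroup.induction_on with
    | H g =>
      obtain ⟨γ, rfl⟩ : ∃ γ : SL(2, ℤ), g = γ⁻¹ := ⟨g⁻¹, (inv_inv g).symm⟩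
      rw [cosetFun_mk_inv_apply]; simp
  intro x
  ext τ
  exact congrFun (key τ) x

end Fermat.Agent.S20
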