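/-
S20 project: the weights of a frame are even and nonnegative.
-/
import Fermat.Agent.S20.FrameLemmas
import Fermat.Agent.S20.Basic

set_option autoImplicit false

open UpperHalfPlane ModularForm CongruenceSubgroup Matrix.SpecialLinearGroup Filter
open scoped MatrixGroups ModularForm Manifold Topology

noncomputable section

namespace Fermat.Agent.S20

variable {N : ℕ} [NeZero N] {a : X N → ℤ} {F : ∀ x, ModularForm (Γ0 N) (a x)}

omit [NeZero N] in
/-- The coset translates of the zero form vanish. -/
lemma cosetFun_zero_apply {k : ℤ} (c : X N) (τ : ℍ) :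
    cosetFun (0 : ModularForm (Γ0 N) k) c τ = 0 := by
  induction c using QuotientGroup.induction_on with
  | H g =>
    obtain ⟨γ, rfl⟩ : ∃ γ : SL(2, ℤ), g = γ⁻¹ := ⟨g⁻¹, (inv_inv g).symm⟩
    rw [cosetFun_mk_inv_apply]; simp

/-- The members of a frame are nonzero. -/
theorem IsFrame.ne_zero (hF : IsFrame a F) (x : X N) : F x ≠ 0 := by
  intro h
  refine hF.1 UpperHalfPlane.I (Matrix.det_eq_zero_of_column_eq_zero x fun c => ?_)
  simp only [frameMatrix, Matrix.of_apply]
  rw [h]
  exact cosetFun_zero_apply c _

/-- The weights of a frame are even. -/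
theorem IsFrame.even (hF : IsFrame a F) (x : X N) : Even (a x) := by
  by_contra h
  exact hF.ne_zero x (eq_zero_of_odd_weight (Int.not_even_iff_odd.mp h) (F x))

/-- The weights of a frame are nonnegative. -/
theorem IsFrame.nonneg (hF : IsFrame a F) (x : X N) : 0 ≤ a x := by
  by_contra h
  exact hF.ne_zero x (eq_zero_of_neg_weight (not_le.mp h) (F x))

end Fermat.Agent.S20
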