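/- S20 package B: level-one toolkit (B1..B8 proved; helper61).
Auxiliary lemmas live in the namespace `Fermat.Agent.S20.H61`. -/
import Fermat.Agent.S20.Defs
set_option autoImplicit false

open UpperHalfPlane ModularForm CongruenceSubgroup Matrix.SpecialLinearGroup Filter
open scoped MatrixGroups ModularForm Manifold Topology

noncomputable section

namespace Fermat.Agent.S20

/-- B1. Descent: a holomorphic function on `ℍ`, invariant under the weight-`m` slash action of all of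
`SL(2, ℤ)` and bounded at `i∞`, is a level-one modular form. -/
theorem levelOne_of_invariant {m : ℤ} {u : ℍ → ℂ} (hol : MDiff u)
    (inv : ∀ g : SL(2, ℤ), u ∣[m] g = u) (bdd : IsBoundedAtImInfty u) :
    ∃ r : ModularForm 𝒮ℒ m, ⇑r = u :=
  ⟨{ toFun := u
     slash_action_eq' := fun _ ⟨γ, hγ⟩ ↦ hγ ▸ inv γ
     holo' := hol
     bdd_at_cusps' := fun {c} hc ↦ by
      rw [Subgroup.IsArithmetic.isCusp_iff_isCusp_SL2Z] at hc
      rw [OnePoint.isBoundedAt_iff_forall_SL2Z hc]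
      intro γ _
      rw [inv γ]
      exact bdd }, rfl⟩

/-- Auxiliary: a holomorphic `SL(2, ℤ)`-invariant function vanishing at `i∞` is a level-one cusp
form. -/
theorem H61.levelOne_cuspForm_of_invariant {m : ℤ} {u : ℍ → ℂ} (hol : MDiff u)
    (inv : ∀ g : SL(2, ℤ), u ∣[m] g = u) (zero : IsZeroAtImInfty u) :
    ∃ r : CuspForm 𝒮ℒ m, ⇑r = u :=
  ⟨{ toFun := u
     slash_action_eq' := fun _ ⟨γ, hγ⟩ ↦ hγ ▸ inv γ
     holo' := hol
     zero_at_cusps' := fun {c} hc ↦ by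
      rw [Subgroup.IsArithmetic.isCusp_iff_isCusp_SL2Z] at hc
      rw [OnePoint.isZeroAt_iff_forall_SL2Z hc]
      intro γ _
      rw [inv γ]
      exact zero }, rfl⟩

/-- B2. Cuspidal descent: if moreover `u` tends to `0` at `i∞`, it is `Δ` times a level-one form. -/
theorem levelOne_cusp_of_invariant {m : ℤ} {u : ℍ → ℂ} (hol : MDiff u)
    (inv : ∀ g : SL(2, ℤ), u ∣[m] g = u) (zero : IsZeroAtImInfty u) :
    ∃ r : ModularForm 𝒮ℒ (m - 12), ∀ τ, u τ = discriminant τ * r τ := by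
  obtain ⟨f, hf⟩ := H61.levelOne_cuspForm_of_invariant hol inv zero
  refine ⟨CuspForm.discriminantEquiv f, fun τ ↦ ?_⟩
  rw [discriminant_mul_discriminantEquiv_apply, hf]

/-- B4. A level-one form has a limit at `i∞`. -/
theorem levelOne_tendsto {m : ℤ} (r : ModularForm 𝒮ℒ m) :
    Tendsto r atImInfty (𝓝 (valueAtInfty r)) := by
  have hanal := ModularFormClass.analyticAt_cuspFunction_zero r one_pos one_mem_strictPeriods_SL
  have hper := SlashInvariantFormClass.periodic_comp_ofComplex r one_mem_strictPeriods_SL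
  rw [← cuspFunction_apply_zero one_pos hanal hper]
  exact (hanal.continuousAt.tendsto.comp (qParam_tendsto_atImInfty one_pos)).congr
    (fun τ ↦ SlashInvariantFormClass.eq_cuspFunction r τ one_mem_strictPeriods_SL one_ne_zero)

/-- Auxiliary: the value at `i∞` of a level-one form is the constant term of its `q`-expansion. -/
theorem H61.levelOne_valueAtInfty_eq_coeff {m : ℤ} (r : ModularForm 𝒮ℒ m) :
    valueAtInfty r = (qExpansion 1 r).coeff 0 :=
  (qExpansion_coeff_zero one_pos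
    (ModularFormClass.analyticAt_cuspFunction_zero r one_pos one_mem_strictPeriods_SL)
    (SlashInvariantFormClass.periodic_comp_ofComplex r one_mem_strictPeriods_SL)).symm

/-- B5. In every even weight `≥ 4` there is a level-one form with value `1` at `i∞`. -/
theorem exists_levelOne_valueAtInfty_one {m : ℕ} (hm : Even m) (hm4 : 4 ≤ m) :
    ∃ s : ModularForm 𝒮ℒ m, valueAtInfty s = 1 :=
  ⟨E (by omega : 3 ≤ m), by
    rw [H61.levelOne_valueAtInfty_eq_coeff]
    exact EisensteinSeries.E_qExpansion_coeff_zero _ hm⟩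

/-- Auxiliary: the slash invariance of a level-one form, in `SL(2, ℤ)` form. -/
theorem H61.levelOne_slash_eq {m : ℤ} (r : ModularForm 𝒮ℒ m) (g : SL(2, ℤ)) : ⇑r ∣[m] g = ⇑r :=
  r.slash_action_eq' _ ⟨g, rfl⟩

/-- Auxiliary: `E₄` tends to `1` at `i∞`. -/
theorem H61.E₄_tendsto_one : Tendsto E₄ atImInfty (𝓝 1) := by
  have h := levelOne_tendsto E₄
  rwa [H61.levelOne_valueAtInfty_eq_coeff, EisensteinSeries.E_qExpansion_coeff_zero _ ⟨2, rfl⟩] at h

/-- Auxiliary: `E₆` tends to `1` at `i∞`. -/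
theorem H61.E₆_tendsto_one : Tendsto E₆ atImInfty (𝓝 1) := by
  have h := levelOne_tendsto E₆
  rwa [H61.levelOne_valueAtInfty_eq_coeff, EisensteinSeries.E_qExpansion_coeff_zero _ ⟨3, rfl⟩] at h

/-- Auxiliary: in weight `0` and in every even weight `≥ 4` there is a level-one form tending to `1`
at `i∞`. -/
theorem H61.exists_levelOne_tendsto_one {k : ℤ} (hk : Even k) (hk4 : k = 0 ∨ 4 ≤ k) :
    ∃ s : ModularForm 𝒮ℒ k, Tendsto s atImInfty (𝓝 1) := by
  rcases hk4 with rfl | hk4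
  · exact ⟨ModularForm.const 1, tendsto_const_nhds⟩
  · lift k to ℕ using (by omega : 0 ≤ k)
    obtain ⟨s, hs⟩ := exists_levelOne_valueAtInfty_one (m := k) (by exact_mod_cast hk)
      (by exact_mod_cast hk4)
    exact ⟨s, hs ▸ levelOne_tendsto s⟩

/-- Auxiliary: the decomposition of B3, given a form `E₄ s₀ + E₆ t₀` tending to `1` at `i∞`. -/
theorem H61.levelOne_decomp_of_tendsto_one {m : ℤ} (r : ModularForm 𝒮ℒ m)
    (s₀ : ModularForm 𝒮ℒ (m - 4)) (t₀ : ModularForm 𝒮ℒ (m - 6))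
    (h₀ : Tendsto (fun τ ↦ E₄ τ * s₀ τ + E₆ τ * t₀ τ) atImInfty (𝓝 1)) :
    ∃ (s : ModularForm 𝒮ℒ (m - 4)) (t : ModularForm 𝒮ℒ (m - 6)),
      ∀ τ, r τ = E₄ τ * s τ + E₆ τ * t τ := by
  set c : ℂ := valueAtInfty r with hc
  let G : ModularForm 𝒮ℒ m :=
    mcast (by ring) (E₄.mul s₀) + mcast (by ring) (E₆.mul t₀)
  have hG : ∀ τ, G τ = E₄ τ * s₀ τ + E₆ τ * t₀ τ := fun τ ↦ rfl
  let r₁ : ModularForm 𝒮ℒ m := r - c • G
  have hr₁ : ∀ τ, r₁ τ = r τ - c * (E₄ τ * s₀ τ + E₆ τ * t₀ τ) := fun τ ↦ rfl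
  have hzero : IsZeroAtImInfty (⇑r₁) := by
    have h1 : Tendsto (fun τ ↦ r τ - c * (E₄ τ * s₀ τ + E₆ τ * t₀ τ)) atImInfty
        (𝓝 (c - c * 1)) := (levelOne_tendsto r).sub (h₀.const_mul c)
    rw [mul_one, sub_self] at h1
    exact h1.congr fun τ ↦ (hr₁ τ).symm
  obtain ⟨r', hr'⟩ := levelOne_cusp_of_invariant r₁.holo' (H61.levelOne_slash_eq r₁) hzero
  refine ⟨c • s₀ + (1 / 1728 : ℂ) • mcast (by ring) ((E₄.mul E₄).mul r'),
    c • t₀ - (1 / 1728 : ℂ) • mcast (by ring) (E₆.mul r'), fun τ ↦ ?_⟩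
  have h2 : r₁ τ = discriminant τ * r' τ := hr' τ
  rw [hr₁, discriminant_eq_E₄_cube_sub_E₆_sq] at h2
  have e1 : (c • s₀ + (1 / 1728 : ℂ) • mcast (by ring) ((E₄.mul E₄).mul r') :
      ModularForm 𝒮ℒ (m - 4)) τ = c * s₀ τ + (1 / 1728 : ℂ) * (E₄ τ * E₄ τ * r' τ) := rfl
  have e2 : (c • t₀ - (1 / 1728 : ℂ) • mcast (by ring) (E₆.mul r') :
      ModularForm 𝒮ℒ (m - 6)) τ = c * t₀ τ - (1 / 1728 : ℂ) * (E₆ τ * r' τ) := rfl
  rw [e1, e2]
  linear_combination h2

/-- B3. Every level-one form of positive weight lies in `E₄ · M + E₆ · M`. -/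
theorem levelOne_decomp {m : ℤ} (hm : 0 < m) (r : ModularForm 𝒮ℒ m) :
    ∃ (s : ModularForm 𝒮ℒ (m - 4)) (t : ModularForm 𝒮ℒ (m - 6)),
      ∀ τ, r τ = E₄ τ * s τ + E₆ τ * t τ := by
  rcases Int.even_or_odd m with hev | hodd
  · by_cases h2 : m = 2
    · subst h2
      have h0 : r = 0 := rank_zero_iff_forall_zero.mp levelOne_weight_two_rank_zero r
      exact ⟨0, 0, fun τ ↦ by simp [h0]⟩
    · have hm4 : 4 ≤ m := by
        obtain ⟨j, rfl⟩ := hev
        omega
      by_cases h6 : m = 6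
      · subst h6
        obtain ⟨t₀, ht₀⟩ := H61.exists_levelOne_tendsto_one (k := 6 - 6) (by decide) (Or.inl (by norm_num))
        refine H61.levelOne_decomp_of_tendsto_one r 0 t₀ ?_
        have h1 : Tendsto (fun τ ↦ E₆ τ * t₀ τ) atImInfty (𝓝 (1 * 1)) := H61.E₆_tendsto_one.mul ht₀
        rw [mul_one] at h1
        exact h1.congr fun τ ↦ by simp
      · obtain ⟨s₀, hs₀⟩ := H61.exists_levelOne_tendsto_one (k := m - 4)
          (by obtain ⟨j, rfl⟩ := hev; exact ⟨j - 2, by ring⟩)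
          (by obtain ⟨j, rfl⟩ := hev; omega)
        refine H61.levelOne_decomp_of_tendsto_one r s₀ 0 ?_
        have h1 : Tendsto (fun τ ↦ E₄ τ * s₀ τ) atImInfty (𝓝 (1 * 1)) := H61.E₄_tendsto_one.mul hs₀
        rw [mul_one] at h1
        exact h1.congr fun τ ↦ by simp
  · have h0 : r = 0 := levelOne_odd_weight_eq_zero hodd r
    exact ⟨0, 0, fun τ ↦ by simp [h0]⟩

/-- B6. Dimension of level-one forms of even weight `m ≥ 0`. -/
theorem finrank_levelOne (m : ℕ) (hm : Even m) :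
    Module.finrank ℂ (ModularForm 𝒮ℒ (m : ℤ)) = if m % 12 = 2 then m / 12 else m / 12 + 1 := by
  have h := dimension_level_one m hm
  have h2 : (m ≡ 2 [MOD 12]) ↔ m % 12 = 2 := by
    simp [Nat.ModEq]
  rw [← Module.finrank_eq_rank] at h
  simp only [h2] at h
  split_ifs at h ⊢ with h3
  · exact_mod_cast h
  · exact_mod_cast h

/-- B7. No level-one forms of negative weight. -/
theorem finrank_levelOne_neg {m : ℤ} (hm : m < 0) :
    Module.finrank ℂ (ModularForm 𝒮ℒ m) = 0 := by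
  have h := levelOne_neg_weight_rank_zero hm
  rw [← Module.finrank_eq_rank] at h
  exact_mod_cast h

/-- B8. A level-one form of weight `0` is constant. -/
theorem levelOne_weight_zero (r : ModularForm 𝒮ℒ 0) : ∃ c : ℂ, ∀ τ, r τ = c := by
  obtain ⟨c, hc⟩ := ModularFormClass.levelOne_weight_zero_const r
  exact ⟨c, fun τ ↦ by rw [hc]; rfl⟩

end Fermat.Agent.S20
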