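/- S20 package L: invariant vectors and orbits (proved by helper26; proof in `H26/InvOf.lean`). -/
import Fermat.Agent.S20.Defs
import Fermat.Agent.S20.H26.InvOf
set_option autoImplicit false

open UpperHalfPlane ModularForm CongruenceSubgroup Matrix.SpecialLinearGroup Filter
open scoped MatrixGroups ModularForm Manifold Topology

noncomputable section

namespace Fermat.Agent.S20

/-- L. The space of `g`-invariant vectors on `X N` has dimension the number of orbits of `g`. -/
theorem finrank_invOf (N : ℕ) [NeZero N] (g : SL(2, ℤ)) :
    Module.finrank ℂ (invOf N g) = Nat.card (Orb N g) :=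
  H26.finrank_invOf N g

end Fermat.Agent.S20
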