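/-
S20 package JA: algebra on top of the jets at `i∞` (helper39).
For a frame `F` of `M_*(Γ₀(N))`: the jet matrix is invertible (JA1'), and for every even weight
`k ≥ 14` one has `dim M_k(Γ₀(N)) = dim S_k(Γ₀(N)) + #(T-orbits on X N)` (JA3), provided the weights
of the frame are at most `10`.
-/
import Fermat.Agent.S20.FrameWeights
import Fermat.Agent.S20.H39.JetAlg

set_option autoImplicit false

open UpperHalfPlane ModularForm CongruenceSubgroup Matrix.SpecialLinearGroup Filter
open scoped MatrixGroups ModularForm Manifold Topology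

noncomputable section

namespace Fermat.Agent.S20

variable {N : ℕ} [NeZero N] {a : X N → ℤ} {F : ∀ x, ModularForm (Γ0 N) (a x)}

/-- JA1. The jets of a frame are linearly independent. -/
theorem IsFrame.linearIndependent_jetVec (hF : IsFrame a F) :
    LinearIndependent ℂ (fun x => jetVec (F x)) :=
  H39.linearIndependent_jetVec F hF.even (fun _ f => hF.gen f) (fun _ r h => hF.indep r h)

/-- JA1. The jets of a frame span all vectors. -/
theorem IsFrame.span_jetVec (hF : IsFrame a F) :
    Submodule.span ℂ (Set.range fun x => jetVec (F x)) = ⊤ :=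
  H39.span_jetVec_eq_top F hF.even (fun _ f => hF.gen f) (fun _ r h => hF.indep r h) rfl

/-- JA1'. The jet matrix of a frame is invertible. -/
theorem jetMatrix_det_ne_zero (hF : IsFrame a F) :
    (Matrix.of fun (c : X N) (x : X N) => jetVec (F x) c).det ≠ 0 := by
  have h1 : LinearIndependent ℂ (Matrix.of fun (c : X N) (x : X N) => jetVec (F x) c).col :=
    hF.linearIndependent_jetVec
  exact (Matrix.isUnit_iff_isUnit_det _).mp (Matrix.linearIndependent_cols_iff_isUnit.mp h1)
    |>.ne_zero

/-- JA2. Every `T`-invariant vector is the vector of cusp values of a form of weight `k`, for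
every even `k ≥ 14` (frame weights at most `10`). -/
theorem IsFrame.exists_limVec_eq (hF : IsFrame a F) (ha10 : ∀ x, a x ≤ 10) {k : ℤ} (hk : Even k)
    (hk14 : 14 ≤ k) (v : X N → ℂ) (hv : v ∈ invOf N ModularGroup.T) :
    ∃ f : ModularForm (Γ0 N) k, limVec f = v :=
  H39.exists_limVec_eq F hF.even hF.span_jetVec hk (fun x => by linarith [ha10 x]) v hv

/-- JA3 (= H1). For even `k ≥ 14`: `dim M_k(Γ₀(N)) = dim S_k(Γ₀(N)) + #(T-orbits on X N)`
(frame weights at most `10`). -/
theorem finrank_modularForm_eq_cusp_add (hF : IsFrame a F) (ha10 : ∀ x, a x ≤ 10) {k : ℤ}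
    (hk : Even k) (hk14 : 14 ≤ k) :
    Module.finrank ℂ (ModularForm (Γ0 N) k) =
      Module.finrank ℂ (CuspForm (Γ0 N) k) + Nat.card (Orb N ModularGroup.T) :=
  H39.finrank_modularForm_eq_add F hF.even (fun _ f => hF.gen f) hF.span_jetVec hk
    (fun x => by linarith [ha10 x])

end Fermat.Agent.S20
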