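/- S20 package G2: the dual frame of cusp forms (adapter to helper82's H82.DualFrame). -/
import Fermat.Agent.S20.JetAlg
import Fermat.Agent.S20.H82.DualFrame
set_option autoImplicit false

open UpperHalfPlane ModularForm CongruenceSubgroup Matrix.SpecialLinearGroup Filter
open scoped MatrixGroups ModularForm Manifold Topology

noncomputable section

namespace Fermat.Agent.S20

variable {N : ℕ} [NeZero N] {a : X N → ℤ} {F : ∀ x, ModularForm (Γ0 N) (a x)}

/-- G2. The dual frame: the rows of `Δ • Φ⁻¹` are the coset translates of cusp forms of weights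
`12 - a x`. -/
theorem exists_dual_frame (hF : IsFrame a F) :
    ∃ G : ∀ x, CuspForm (Γ0 N) (12 - a x),
      (∀ (x y : X N) (τ : ℍ), ∑ c, cosetFun (G x) c τ * cosetFun (F y) c τ =
        if x = y then ModularForm.discriminant τ else 0) ∧
      (∀ (c c' : X N) (τ : ℍ), ∑ x, cosetFun (F x) c τ * cosetFun (G x) c' τ =
        if c = c' then ModularForm.discriminant τ else 0) :=
  H82.exists_dual_frame_of_jet F hF.1 (jetMatrix_det_ne_zero hF)

end Fermat.Agent.S20
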