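/- S20 package G3: weights of a frame and dimension formulas (adapter to helper85's H85.DualFrame). -/
import Fermat.Agent.S20.Cusp
import Fermat.Agent.S20.H85.DualFrame
set_option autoImplicit false

open UpperHalfPlane ModularForm CongruenceSubgroup Matrix.SpecialLinearGroup Filter
open scoped MatrixGroups ModularForm Manifold Topology

noncomputable section

namespace Fermat.Agent.S20

variable {N : ℕ} [NeZero N] {a : X N → ℤ} {F : ∀ x, ModularForm (Γ0 N) (a x)}

/-- A frame has a dual frame in the sense of `H85`. -/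
theorem exists_isDualFrame (hF : IsFrame a F) :
    ∃ G : ∀ x, CuspForm (Γ0 N) (12 - a x), H85.IsDualFrame F G := by
  obtain ⟨G, hG, -⟩ := exists_dual_frame hF
  exact ⟨G, fun τ x y => hG x y τ⟩

/-- G3a. The weights of a frame are even and lie between `0` and `10`. -/
theorem weight_range (hF : IsFrame a F) (x : X N) : 0 ≤ a x ∧ a x ≤ 10 ∧ Even (a x) := by
  obtain ⟨G, hG⟩ := exists_isDualFrame hF
  exact ⟨hG.weight_nonneg x, hG.weight_le x, hG.weight_even x⟩

/-- G3b. Modular forms of weight `k` on `Γ₀(N)` are uniquely `∑ r_x F_x`. -/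
theorem finrank_modularForm (hF : IsFrame a F) (k : ℤ) :
    Module.finrank ℂ (ModularForm (Γ0 N) k) = ∑ x, Module.finrank ℂ (ModularForm 𝒮ℒ (k - a x)) := by
  obtain ⟨G, hG⟩ := exists_isDualFrame hF
  exact hG.finrank_modularForm k

/-- G3c. Cusp forms of weight `k` on `Γ₀(N)` are uniquely `∑ s_x G_x` for the dual frame `G`. -/
theorem finrank_cuspForm (hF : IsFrame a F) (k : ℤ) :
    Module.finrank ℂ (CuspForm (Γ0 N) k) = ∑ x, Module.finrank ℂ (ModularForm 𝒮ℒ (k + a x - 12)) := by
  obtain ⟨G, hG⟩ := exists_isDualFrame hF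
  exact hG.finrank_cuspForm k

end Fermat.Agent.S20
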