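/- S20 package G4: counting the weights of a frame modulo 4 and 6 (adapter to helper90's H90). -/
import Fermat.Agent.S20.FrameWeights
import Fermat.Agent.S20.H90.EllipticCount

set_option autoImplicit false

open UpperHalfPlane ModularForm CongruenceSubgroup Matrix.SpecialLinearGroup Filter
open scoped MatrixGroups ModularForm Manifold Topology

noncomputable section

namespace Fermat.Agent.S20

variable {N : ℕ} [NeZero N] {a : X N → ℤ} {F : ∀ x, ModularForm (Γ0 N) (a x)}

lemma natCard_subtype_emod (a : X N → ℤ) (d : ℤ) :
    Nat.card {x : X N // a x % d = 0} = (Finset.univ.filter fun x => d ∣ a x).card := by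
  rw [Nat.card_eq_fintype_card, Fintype.card_subtype]
  congr 1
  ext x
  simp only [Finset.mem_filter, Finset.mem_univ, true_and]
  exact (Int.dvd_iff_emod_eq_zero).symm

/-- G4a. Evaluating a frame at `i`: the weights divisible by `4`. -/
theorem card_four_dvd (hF : IsFrame a F) :
    2 * (Finset.univ.filter fun x => (4 : ℤ) ∣ a x).card =
      Nat.card (X N) + Nat.card (MulAction.fixedBy (X N) ModularGroup.S) := by
  rw [← natCard_subtype_emod a 4]
  exact H90.count_at_I F hF.even (hF.1 _)

/-- G4b. Evaluating a frame at `ρ`: the weights divisible by `6`. -/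
theorem card_six_dvd (hF : IsFrame a F) :
    3 * (Finset.univ.filter fun x => (6 : ℤ) ∣ a x).card =
      Nat.card (X N) + 2 * Nat.card (MulAction.fixedBy (X N) (ModularGroup.S * ModularGroup.T)) := by
  rw [← natCard_subtype_emod a 6]
  exact (H90.count_at_rho F hF.even (hF.1 _)).1

end Fermat.Agent.S20
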