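/- S20 package G1: existence of a frame (adapter to helper90's H90.FrameMain). -/
import Fermat.Agent.S20.H90.FrameMain
set_option autoImplicit false

open UpperHalfPlane ModularForm CongruenceSubgroup Matrix.SpecialLinearGroup Filter
open scoped MatrixGroups ModularForm Manifold Topology

noncomputable section

namespace Fermat.Agent.S20

/-- G1. There is a frame: `|X N|` generators whose matrix of coset translates is invertible everywhere. -/
theorem exists_frame (N : ℕ) [NeZero N] :
    ∃ (a : X N → ℤ) (F : ∀ x, ModularForm (Γ0 N) (a x)), IsFrame a F :=
  H90.exists_frame N

end Fermat.Agent.S20
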