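/- S20 package H: assembly. -/
import Fermat.Agent.S20.Decomp
import Fermat.Agent.S20.Frame
import Fermat.Agent.S20.EllipticCount
import Fermat.Agent.S20.H77.Index
import Fermat.Agent.S20.H77.FixedPoints
import Fermat.Agent.S20.H64.CuspCount

set_option autoImplicit false

open UpperHalfPlane ModularForm CongruenceSubgroup Matrix.SpecialLinearGroup Filter
open scoped MatrixGroups ModularForm Manifold Topology

noncomputable section

namespace Fermat.Agent.S20

variable {N : ℕ} [NeZero N]

/-- Modular forms of weight `0` on `Γ₀(N)` are the constants. -/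
theorem finrank_modularForm_zero (N : ℕ) [NeZero N] :
    Module.finrank ℂ (ModularForm (Γ0 N) 0) = 1 := by
  refine finrank_eq_one (1 : ModularForm (Γ0 N) 0) ?_ ?_
  · intro h
    have h1 := congrArg (fun f : ModularForm (Γ0 N) 0 => f UpperHalfPlane.I) h
    simp [ModularForm.one_coe_eq_one] at h1
  · intro w
    obtain ⟨c, hc⟩ := ModularForm.eq_const_of_weight_zero w
    refine ⟨c, ?_⟩
    ext τ
    simp [hc, ModularForm.one_coe_eq_one]

/-- The level-one dimensions, as a function of an integer weight. -/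
def dLO (m : ℤ) : ℕ := Module.finrank ℂ (ModularForm 𝒮ℒ m)

lemma dLO_neg {m : ℤ} (hm : m < 0) : dLO m = 0 := finrank_levelOne_neg hm

lemma dLO_nat (m : ℤ) (n : ℕ) (h : m = (n : ℤ)) (hn : Even n) :
    dLO m = if n % 12 = 2 then n / 12 else n / 12 + 1 := by
  subst h
  exact finrank_levelOne n hn

lemma dLO_0 : dLO 0 = 1 := by rw [dLO_nat 0 0 (by norm_num) (by decide)]; norm_num
lemma dLO_2 : dLO 2 = 0 := by rw [dLO_nat 2 2 (by norm_num) (by decide)]; norm_num
lemma dLO_4 : dLO 4 = 1 := by rw [dLO_nat 4 4 (by norm_num) (by decide)]; norm_num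
lemma dLO_6 : dLO 6 = 1 := by rw [dLO_nat 6 6 (by norm_num) (by decide)]; norm_num
lemma dLO_8 : dLO 8 = 1 := by rw [dLO_nat 8 8 (by norm_num) (by decide)]; norm_num
lemma dLO_10 : dLO 10 = 1 := by rw [dLO_nat 10 10 (by norm_num) (by decide)]; norm_num
lemma dLO_12 : dLO 12 = 2 := by rw [dLO_nat 12 12 (by norm_num) (by decide)]; norm_num
lemma dLO_14 : dLO 14 = 1 := by rw [dLO_nat 14 14 (by norm_num) (by decide)]; norm_num

/-- Number of members of weight `j` of a family of weights. -/
def cnt (a : X N → ℤ) (j : ℤ) : ℕ := (Finset.univ.filter fun x => a x = j).card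

/-- Summing a function of the weight over the cosets, when the weights lie in `{0,2,4,6,8,10}`. -/
lemma sum_weights (a : X N → ℤ) (ha : ∀ x, 0 ≤ a x ∧ a x ≤ 10 ∧ Even (a x)) (g : ℤ → ℕ) :
    ∑ x, g (a x) = cnt a 0 * g 0 + cnt a 2 * g 2 + cnt a 4 * g 4 + cnt a 6 * g 6 + cnt a 8 * g 8 +
      cnt a 10 * g 10 := by
  have hmem : ∀ x ∈ (Finset.univ : Finset (X N)), a x ∈ ({0, 2, 4, 6, 8, 10} : Finset ℤ) := by
    intro x _
    obtain ⟨h0, h10, t, ht⟩ := ha x
    have : a x = 0 ∨ a x = 2 ∨ a x = 4 ∨ a x = 6 ∨ a x = 8 ∨ a x = 10 := by omega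
    simp only [Finset.mem_insert, Finset.mem_singleton]
    exact this
  rw [← Finset.sum_fiberwise_of_maps_to hmem]
  have hfib : ∀ j : ℤ, ∑ x ∈ Finset.univ with a x = j, g (a x) = cnt a j * g j := by
    intro j
    rw [cnt, ← smul_eq_mul, ← Finset.sum_const]
    refine Finset.sum_congr rfl fun x hx => ?_
    rw [(Finset.mem_filter.mp hx).2]
  simp only [hfib]
  rw [Finset.sum_insert (by decide), Finset.sum_insert (by decide), Finset.sum_insert (by decide),
    Finset.sum_insert (by decide), Finset.sum_insert (by decide), Finset.sum_singleton]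
  ring

/-- H. The dimension of the space of cusp forms of weight `2` on `Γ₀(N)` is the genus formula. -/
theorem finrank_cuspForm_two (N : ℕ) [NeZero N] :
    (Module.finrank ℂ (CuspForm (Γ0 N) 2) : ℚ) = ModularCurve.genusFormula N := by
  obtain ⟨a, F, hF⟩ := exists_frame N
  have ha := weight_range hF
  -- (E1) the total count
  have E1 : cnt a 0 + cnt a 2 + cnt a 4 + cnt a 6 + cnt a 8 + cnt a 10 = Nat.card (X N) := by
    have := sum_weights a ha (fun _ => 1)
    simp only [Finset.sum_const, Finset.card_univ, smul_eq_mul, mul_one] at this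
    rw [Nat.card_eq_fintype_card, this]
  -- (E2) exactly one member of weight 0
  have E2 : cnt a 0 = 1 := by
    have h := finrank_modularForm hF 0
    rw [finrank_modularForm_zero] at h
    have h2 := sum_weights a ha (fun j => dLO (0 - j))
    simp only [dLO] at h2
    rw [← h] at h2
    have e0 : Module.finrank ℂ (ModularForm 𝒮ℒ (0 - 0)) = 1 := by
      have := dLO_0; simpa [dLO] using this
    have en : ∀ j : ℤ, 0 < j → Module.finrank ℂ (ModularForm 𝒮ℒ (0 - j)) = 0 := fun j hj =>
      finrank_levelOne_neg (by omega)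
    rw [e0, en 2 (by norm_num), en 4 (by norm_num), en 6 (by norm_num), en 8 (by norm_num),
      en 10 (by norm_num)] at h2
    omega
  -- (E3) weights divisible by 4
  have E3 : 2 * (cnt a 0 + cnt a 4 + cnt a 8) = Nat.card (X N) + ModularCurve.nuTwo N := by
    have h := card_four_dvd hF
    have h2 := sum_weights a ha (fun j => if (4 : ℤ) ∣ j then 1 else 0)
    rw [← Finset.card_filter] at h2
    rw [h2] at h
    have hfix : Nat.card (MulAction.fixedBy (X N) ModularGroup.S) = ModularCurve.nuTwo N :=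
      H77.card_fixedBy_S N
    rw [hfix] at h
    have d0 : (4 : ℤ) ∣ 0 := by decide
    have d2 : ¬ (4 : ℤ) ∣ 2 := by decide
    have d4 : (4 : ℤ) ∣ 4 := by decide
    have d6 : ¬ (4 : ℤ) ∣ 6 := by decide
    have d8 : (4 : ℤ) ∣ 8 := by decide
    have d10 : ¬ (4 : ℤ) ∣ 10 := by decide
    simp only [d0, d2, d4, d6, d8, d10, if_true, if_false] at h
    omega
  -- (E4) weights divisible by 6
  have E4 : 3 * (cnt a 0 + cnt a 6) = Nat.card (X N) + 2 * ModularCurve.nuThree N := by
    have h := card_six_dvd hF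
    have h2 := sum_weights a ha (fun j => if (6 : ℤ) ∣ j then 1 else 0)
    rw [← Finset.card_filter] at h2
    rw [h2] at h
    have hfix : Nat.card (MulAction.fixedBy (X N) (ModularGroup.S * ModularGroup.T)) =
        ModularCurve.nuThree N := H77.card_fixedBy_ST N
    rw [hfix] at h
    have d0 : (6 : ℤ) ∣ 0 := by decide
    have d2 : ¬ (6 : ℤ) ∣ 2 := by decide
    have d4 : ¬ (6 : ℤ) ∣ 4 := by decide
    have d6 : (6 : ℤ) ∣ 6 := by decide
    have d8 : ¬ (6 : ℤ) ∣ 8 := by decide
    have d10 : ¬ (6 : ℤ) ∣ 10 := by decide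
    simp only [d0, d2, d4, d6, d8, d10, if_true, if_false] at h
    omega
  -- (E5) the Eisenstein count in weight 14
  have E5 : cnt a 0 + cnt a 2 = cnt a 10 + ModularCurve.cuspCount N := by
    have h : Module.finrank ℂ (ModularForm (Γ0 N) 14) =
        Module.finrank ℂ (CuspForm (Γ0 N) 14) + Nat.card (Orb N ModularGroup.T) :=
      H39.finrank_modularForm_eq_add F hF.even (fun _ f => hF.gen f) hF.span_jetVec
        (K := 14) (by decide) (fun x => by linarith [(ha x).2.1])
    have hT : Nat.card (Orb N ModularGroup.T) = ModularCurve.cuspCount N := H64.card_T_orbits N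
    rw [hT, finrank_modularForm hF 14, finrank_cuspForm hF 14] at h
    have h1 := sum_weights a ha (fun j => dLO (14 - j))
    have h2 := sum_weights a ha (fun j => dLO (14 + j - 12))
    simp only [dLO] at h1 h2
    rw [h1, h2] at h
    have e : ∀ (m : ℤ), Module.finrank ℂ (ModularForm 𝒮ℒ m) = dLO m := fun _ => rfl
    simp only [e] at h
    norm_num [dLO_0, dLO_2, dLO_4, dLO_6, dLO_8, dLO_10, dLO_12, dLO_14] at h
    omega
  -- (E6) cusp forms of weight 2
  have E6 : Module.finrank ℂ (CuspForm (Γ0 N) 2) = cnt a 10 := by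
    rw [finrank_cuspForm hF 2]
    have h2 := sum_weights a ha (fun j => dLO (2 + j - 12))
    simp only [dLO] at h2
    rw [h2]
    have e : ∀ (m : ℤ), Module.finrank ℂ (ModularForm 𝒮ℒ m) = dLO m := fun _ => rfl
    simp only [e]
    have en : ∀ m : ℤ, m < 0 → dLO m = 0 := fun m hm => dLO_neg hm
    rw [en (2 + 0 - 12) (by norm_num), en (2 + 2 - 12) (by norm_num), en (2 + 4 - 12) (by norm_num),
      en (2 + 6 - 12) (by norm_num), en (2 + 8 - 12) (by norm_num)]
    norm_num [dLO_0]
  -- arithmetic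
  have hX : Nat.card (X N) = ModularCurve.dedekindPsi N := H77.card_quotient_Gamma0 N
  rw [E6, ModularCurve.genusFormula, ← hX]
  have E1' := congrArg (Nat.cast : ℕ → ℚ) E1
  have E2' := congrArg (Nat.cast : ℕ → ℚ) E2
  have E3' := congrArg (Nat.cast : ℕ → ℚ) E3
  have E4' := congrArg (Nat.cast : ℕ → ℚ) E4
  have E5' := congrArg (Nat.cast : ℕ → ℚ) E5
  push_cast at E1' E2' E3' E4' E5'
  linarith

end Fermat.Agent.S20
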