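/- S20 package C-II (helper61), independent BACKUP of C11..C15 of `Fermat/Agent/S20/Basic.lean`:
vanishing / constancy of forms on `Γ₀(N)` in degenerate weights, and the construction of a modular
(cusp) form on `Γ₀(N)` from its family of coset translates.
Everything lives in the namespace `Fermat.Agent.S20.H61`, so this file can be imported together with
`Basic.lean` (which proves the same statements in the namespace `Fermat.Agent.S20`). -/
import Fermat.Agent.S20.Defs
set_option autoImplicit false
set_option linter.unusedSectionVars false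

open UpperHalfPlane ModularForm CongruenceSubgroup Matrix.SpecialLinearGroup Filter
open scoped MatrixGroups ModularForm Manifold Topology

noncomputable section

namespace Fermat.Agent.S20.H61

variable {N : ℕ} [NeZero N] {k : ℤ}

/-- Auxiliary: `-1 ∈ Γ₀(N)`. -/
theorem neg_one_mem_Γ0 (N : ℕ) : (-1 : GL (Fin 2) ℝ) ∈ Γ0 N :=
  ⟨-1, by simp [Gamma0_mem], by ext; simp⟩

/-- C11. A modular form of odd weight on `Γ₀(N)` vanishes. -/
theorem eq_zero_of_odd_weight (hk : Odd k) (f : ModularForm (Γ0 N) k) : f = 0 :=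
  ModularForm.eq_zero_of_neg_one_mem (neg_one_mem_Γ0 N) hk f

/-- C12. A modular form of negative weight on `Γ₀(N)` vanishes; a cusp form of weight `≤ 0` vanishes. -/
theorem eq_zero_of_neg_weight (hk : k < 0) (f : ModularForm (Γ0 N) k) : f = 0 :=
  ModularForm.isZero_of_neg_weight hk f

/-- C13. A modular form of weight `0` on `Γ₀(N)` is constant. -/
theorem const_of_weight_zero (f : ModularForm (Γ0 N) 0) : ∃ c : ℂ, ∀ τ, f τ = c := by
  obtain ⟨c, hc⟩ := ModularForm.eq_const_of_weight_zero f
  exact ⟨c, fun τ ↦ by rw [hc]; rfl⟩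

theorem cusp_eq_zero_of_nonpos_weight (hk : k ≤ 0) (f : CuspForm (Γ0 N) k) : f = 0 := by
  rcases hk.lt_or_eq with hk | rfl
  · have h := eq_zero_of_neg_weight hk (ModularFormClass.modularForm f)
    ext τ
    exact congrArg (fun g : ModularForm (Γ0 N) k ↦ g τ) h
  · obtain ⟨c, hc⟩ := const_of_weight_zero (ModularFormClass.modularForm f)
    have hc' : ∀ τ, f τ = c := hc
    have hz : IsZeroAtImInfty (f : ℍ → ℂ) := CuspFormClass.zero_at_infty f
    have h1 : Tendsto (fun _ : ℍ ↦ c) atImInfty (𝓝 0) := hz.congr fun τ ↦ hc' τ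
    have h2 : c = 0 := tendsto_nhds_unique tendsto_const_nhds h1
    ext τ
    rw [hc' τ, h2]
    rfl

/-- Auxiliary: the transformation law of a family, in slash form. -/
theorem family_slash (u : X N → ℍ → ℂ)
    (tr : ∀ (g : SL(2, ℤ)) (c : X N) (τ : ℍ), u c (g • τ) = denom g τ ^ k * u (g⁻¹ • c) τ)
    (g : SL(2, ℤ)) (c : X N) : u c ∣[k] g = u (g⁻¹ • c) := by
  ext τ
  rw [SL_slash_apply, tr g c τ]
  have h : denom g τ ≠ 0 := denom_ne_zero g τ
  rw [zpow_neg, mul_comm, ← mul_assoc, inv_mul_cancel₀ (zpow_ne_zero _ h), one_mul]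

/-- Auxiliary: the base coset is fixed by `Γ₀(N)`. -/
theorem inv_smul_base {γ : SL(2, ℤ)} (hγ : γ ∈ Gamma0 N) :
    γ⁻¹ • (QuotientGroup.mk 1 : X N) = QuotientGroup.mk 1 := by
  rw [MulAction.Quotient.smul_mk, QuotientGroup.eq]
  simpa using hγ

/-- Auxiliary: the coset translates of a slash-invariant form with underlying function `u ⟦1⟧`. -/
theorem cosetFun_eq_family {F : Type*} [FunLike F ℍ ℂ] [SlashInvariantFormClass F (Γ0 N) k]
    (u : X N → ℍ → ℂ)
    (tr : ∀ (g : SL(2, ℤ)) (c : X N) (τ : ℍ), u c (g • τ) = denom g τ ^ k * u (g⁻¹ • c) τ)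
    (f : F) (hf : (f : ℍ → ℂ) = u (QuotientGroup.mk 1)) (c : X N) : cosetFun f c = u c := by
  induction c using QuotientGroup.induction_on with
  | H g =>
    rw [cosetFun_mk, hf, family_slash u tr, inv_inv, MulAction.Quotient.smul_mk, smul_eq_mul,
      mul_one]

/-- C14. A holomorphic family indexed by the cosets with the transformation law of coset translates,
bounded at `i∞`, is the family of coset translates of a modular form on `Γ₀(N)`. -/
theorem exists_modularForm_of_family (u : X N → ℍ → ℂ) (hol : ∀ c, MDiff (u c))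
    (tr : ∀ (g : SL(2, ℤ)) (c : X N) (τ : ℍ), u c (g • τ) = denom g τ ^ k * u (g⁻¹ • c) τ)
    (bdd : ∀ c, IsBoundedAtImInfty (u c)) :
    ∃ f : ModularForm (Γ0 N) k, ∀ c, cosetFun f c = u c := by
  let f : ModularForm (Γ0 N) k :=
    { toFun := u (QuotientGroup.mk 1)
      slash_action_eq' := by
        rintro _ ⟨γ, hγ, rfl⟩
        have h := family_slash u tr γ (QuotientGroup.mk 1)
        rw [inv_smul_base hγ] at h
        exact h
      holo' := hol _
      bdd_at_cusps' := fun {c} hc ↦ by
        rw [Subgroup.IsArithmetic.isCusp_iff_isCusp_SL2Z] at hc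
        rw [OnePoint.isBoundedAt_iff_forall_SL2Z hc]
        intro γ _
        have h : u (QuotientGroup.mk 1) ∣[k] γ = u (γ⁻¹ • QuotientGroup.mk 1) :=
          family_slash u tr γ (QuotientGroup.mk 1)
        rw [h]
        exact bdd _ }
  exact ⟨f, cosetFun_eq_family u tr f rfl⟩

/-- C15. Same for cusp forms: all members of the family tend to `0` at `i∞`. -/
theorem exists_cuspForm_of_family (u : X N → ℍ → ℂ) (hol : ∀ c, MDiff (u c))
    (tr : ∀ (g : SL(2, ℤ)) (c : X N) (τ : ℍ), u c (g • τ) = denom g τ ^ k * u (g⁻¹ • c) τ)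
    (zero : ∀ c, IsZeroAtImInfty (u c)) :
    ∃ f : CuspForm (Γ0 N) k, ∀ c, cosetFun f c = u c := by
  let f : CuspForm (Γ0 N) k :=
    { toFun := u (QuotientGroup.mk 1)
      slash_action_eq' := by
        rintro _ ⟨γ, hγ, rfl⟩
        have h := family_slash u tr γ (QuotientGroup.mk 1)
        rw [inv_smul_base hγ] at h
        exact h
      holo' := hol _
      zero_at_cusps' := fun {c} hc ↦ by
        rw [Subgroup.IsArithmetic.isCusp_iff_isCusp_SL2Z] at hc
        rw [OnePoint.isZeroAt_iff_forall_SL2Z hc]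
        intro γ _
        have h : u (QuotientGroup.mk 1) ∣[k] γ = u (γ⁻¹ • QuotientGroup.mk 1) :=
          family_slash u tr γ (QuotientGroup.mk 1)
        rw [h]
        exact zero _ }
  exact ⟨f, cosetFun_eq_family u tr f rfl⟩

end Fermat.Agent.S20.H61
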