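/- S20 package J: jets at `i∞` of coset translates (exact interface statements of the S20 skeleton;
proofs in `Fermat.Agent.S20.H91.Jet`, helper91). -/
import Fermat.Agent.S20.H91.Jet
set_option autoImplicit false

open UpperHalfPlane ModularForm CongruenceSubgroup Matrix.SpecialLinearGroup Filter
open scoped MatrixGroups ModularForm Manifold Topology

noncomputable section

namespace Fermat.Agent.S20

variable {N : ℕ} [NeZero N] {k : ℤ}

theorem jetVec_add (f g : ModularForm (Γ0 N) k) : jetVec (f + g) = jetVec f + jetVec g :=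
  H91.jetVec_add f g

theorem jetVec_smul (a : ℂ) (f : ModularForm (Γ0 N) k) : jetVec (a • f) = a • jetVec f :=
  H91.jetVec_smul a f

/-- J0'. Jet of a level-one multiple. -/
theorem jetVec_levelOne_mul {m : ℤ} (r : ModularForm 𝒮ℒ m) (f : ModularForm (Γ0 N) k)
    (h : ModularForm (Γ0 N) (m + k)) (hh : ∀ (c : X N) (τ : ℍ), cosetFun h c τ = r τ * cosetFun f c τ) :
    jetVec h = valueAtInfty r • jetVec f :=
  H91.jetVec_levelOne_mul r f h hh

/-- J1. A form with vanishing jet is divisible by `Δ`. -/
theorem exists_div_discriminant (f : ModularForm (Γ0 N) k) (hf : jetVec f = 0) :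
    ∃ g : ModularForm (Γ0 N) (k - 12),
      ∀ (c : X N) (τ : ℍ), cosetFun f c τ = ModularForm.discriminant τ * cosetFun g c τ :=
  H91.exists_div_discriminant f hf

/-- J2. Summing the jet vector over a `T`-orbit gives `N` times the limit vector. -/
theorem sum_jetVec_T_pow (f : ModularForm (Γ0 N) k) (c : X N) :
    ∑ m ∈ Finset.range N, jetVec f (ModularGroup.T ^ m • c) = N * limVec f c :=
  H91.sum_jetVec_T_pow f c

end Fermat.Agent.S20
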