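/- S20 package F1: values of modular forms on `Γ₀(N)` span all vectors at every point.
Owner: helper30 (adapter from `H30.span_valVec_eq_top`, i.e. the separation route:
`H30/LatticeG.lean`, `H30/Sep.lean`, `H30/Span.lean`, `H30/LocalGen.lean`). -/
import Fermat.Agent.S20.Defs
import Fermat.Agent.S20.H30.LocalGen
set_option autoImplicit false

open UpperHalfPlane ModularForm CongruenceSubgroup Matrix.SpecialLinearGroup Filter
open scoped MatrixGroups ModularForm Manifold Topology

noncomputable section

namespace Fermat.Agent.S20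

variable {N : ℕ} [NeZero N]

/-- F1. At every point `τ` of the upper half plane, the value vectors `(f ∣ g⁻¹)(τ)`, `gΓ ∈ X N`, of
modular forms `f` of all weights on `Γ₀(N)` span `ℂ^(X N)`. -/
theorem span_valVec (τ : ℍ) :
    Submodule.span ℂ {w : X N → ℂ | ∃ (k : ℤ) (f : ModularForm (Γ0 N) k), w = valVec f τ} = ⊤ := by
  rw [eq_top_iff, ← H30.span_valVec_eq_top N τ]
  apply Submodule.span_mono
  rintro w ⟨k, f, rfl⟩
  exact ⟨(k : ℤ), f, rfl⟩

end Fermat.Agent.S20
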