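/-
S20 project: definitions for the Poincaré series (package E) shared with packages F1, F2.
-/
import Fermat.Agent.S20.Defs

set_option autoImplicit false

open UpperHalfPlane ModularForm CongruenceSubgroup Matrix.SpecialLinearGroup Filter
open scoped MatrixGroups ModularForm Manifold Topology

noncomputable section

namespace Fermat.Agent.S20

open EisensteinSeries

lemma exists_lift (v : gammaSet 1 1 0) : ∃ γ : SL(2, ℤ), (γ : Matrix (Fin 2) (Fin 2) ℤ) 1 = v.1 := by
  have h : IsCoprime (v.1 0) (v.1 1) := (mem_gammaSet_one v.1).mp v.2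
  obtain ⟨γ, -, hγ⟩ := ModularGroup.bottom_row_surj (R := ℤ) (show v.1 ∈ {cd | IsCoprime (cd 0) (cd 1)} from h)
  exact ⟨γ, hγ⟩

/-- A chosen matrix of `SL(2, ℤ)` with prescribed (coprime) bottom row. -/
def lift (v : gammaSet 1 1 0) : SL(2, ℤ) := Classical.choose (exists_lift v)

lemma lift_row (v : gammaSet 1 1 0) : (lift v : Matrix (Fin 2) (Fin 2) ℤ) 1 = v.1 :=
  Classical.choose_spec (exists_lift v)

lemma lift_one_zero (v : gammaSet 1 1 0) : (lift v : Matrix (Fin 2) (Fin 2) ℤ) 1 0 = v.1 0 :=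
  congrFun (lift_row v) 0

lemma lift_one_one (v : gammaSet 1 1 0) : (lift v : Matrix (Fin 2) (Fin 2) ℤ) 1 1 = v.1 1 :=
  congrFun (lift_row v) 1

/-- The bottom row of a matrix of `SL(2, ℤ)`, as an element of `gammaSet 1 1 0`. -/
def rowOf (γ : SL(2, ℤ)) : gammaSet 1 1 0 :=
  ⟨(γ : Matrix (Fin 2) (Fin 2) ℤ) 1, (mem_gammaSet_one _).mpr (by
    have h := γ.det_coe
    rw [Matrix.det_fin_two] at h
    exact ⟨-(γ : Matrix (Fin 2) (Fin 2) ℤ) 0 1, (γ : Matrix (Fin 2) (Fin 2) ℤ) 0 0, by linarith⟩)⟩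

lemma lift_rowOf_row (γ : SL(2, ℤ)) :
    (lift (rowOf γ) : Matrix (Fin 2) (Fin 2) ℤ) 1 = (γ : Matrix (Fin 2) (Fin 2) ℤ) 1 :=
  lift_row _

/-- Inner sum of the Poincaré series attached to the polynomial `p` and the coset `x₁`:
the sum over the `N` translates `T ^ n * γ`, `n < N`, of `γ`. It only depends on the bottom row of `γ`
(see `pInner_congr_row` in package E). -/
def pInner {N : ℕ} (p : Polynomial ℂ) (x₁ : X N) (γ : SL(2, ℤ)) (c : X N) (τ : ℍ) : ℂ :=
  ∑ n ∈ Finset.range N, if (ModularGroup.T ^ n * γ) • c = x₁ then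
    p.eval (Function.Periodic.qParam (N : ℝ) (((ModularGroup.T ^ n * γ) • τ : ℍ) : ℂ)) else 0

/-- The `v`-th term of the Poincaré series of weight `k` attached to `p` and `x₁`, evaluated at the
coset `c` and the point `τ`. -/
def pTerm {N : ℕ} (k : ℤ) (p : Polynomial ℂ) (x₁ c : X N) (τ : ℍ) (v : gammaSet 1 1 0) : ℂ :=
  eisSummand k v.1 τ * pInner p x₁ (lift v) c τ

end Fermat.Agent.S20
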